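/-
S41 / [PD-UNIMOD] (helper3), part 1: the orbit lemma.

For a permutation `u` of a finite set `P` and `f : P → ℤ` orthogonal (for the standard form) to
all `u`-invariant functions, `f = r - r ∘ u` for some `r : P → ℤ`.  (Integrally: `(M^u)^⊥ = (1-u)M`
for the permutation module `M = ℤ^P`.)  Proof: induction on the support of `u`, removing one point
from its cycle.
-/
import Mathlib

set_option autoImplicit false
set_option linter.unusedSectionVars false

namespace Fermat.Agent.S41.PDModel3

open Finset

variable {P : Type} [Fintype P] [DecidableEq P]

/-- the standard symmetric form on `P → ℤ` -/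
def dot (f g : P → ℤ) : ℤ := ∑ x, f x * g x

theorem dot_comm (f g : P → ℤ) : dot f g = dot g f := by
  unfold dot
  exact Finset.sum_congr rfl fun x _ => mul_comm _ _

theorem dot_add_left (f f' g : P → ℤ) : dot (f + f') g = dot f g + dot f' g := by
  unfold dot
  rw [← Finset.sum_add_distrib]
  exact Finset.sum_congr rfl fun x _ => by simp [add_mul]

theorem dot_add_right (f g g' : P → ℤ) : dot f (g + g') = dot f g + dot f g' := by
  rw [dot_comm, dot_add_left, dot_comm g, dot_comm g']

theorem dot_neg_left (f g : P → ℤ) : dot (-f) g = - dot f g := by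
  unfold dot
  rw [← Finset.sum_neg_distrib]
  exact Finset.sum_congr rfl fun x _ => by simp

theorem dot_neg_right (f g : P → ℤ) : dot f (-g) = - dot f g := by
  rw [dot_comm, dot_neg_left, dot_comm]

theorem dot_sub_left (f f' g : P → ℤ) : dot (f - f') g = dot f g - dot f' g := by
  rw [sub_eq_add_neg, dot_add_left, dot_neg_left, ← sub_eq_add_neg]

theorem dot_sub_right (f g g' : P → ℤ) : dot f (g - g') = dot f g - dot f g' := by
  rw [sub_eq_add_neg, dot_add_right, dot_neg_right, ← sub_eq_add_neg]

theorem dot_zero_left (g : P → ℤ) : dot 0 g = 0 := by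
  unfold dot; simp

theorem dot_zero_right (f : P → ℤ) : dot f 0 = 0 := by
  unfold dot; simp

/-- precomposition with a permutation is an isometry -/
theorem dot_comp_perm (u : Equiv.Perm P) (f g : P → ℤ) :
    dot (fun x => f (u x)) (fun x => g (u x)) = dot f g := by
  unfold dot
  exact Equiv.sum_comp u (fun x => f x * g x)

theorem dot_single_right (f : P → ℤ) (y : P) : dot f (Pi.single y 1) = f y := by
  unfold dot
  rw [Finset.sum_eq_single y]
  · simp
  · intro x _ hx
    simp [hx]
  · intro h
    exact absurd (Finset.mem_univ y) h

/-- **The orbit lemma.** -/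
theorem exists_eq_sub_comp (u : Equiv.Perm P) :
    ∀ f : P → ℤ, (∀ w : P → ℤ, (∀ x, w (u x) = w x) → dot f w = 0) →
      ∃ r : P → ℤ, ∀ x, f x = r x - r (u x) := by
  induction' hn : u.support.card using Nat.strong_induction_on with n ih generalizing u
  intro f hf
  by_cases hu : ∀ x, u x = x
  · -- `u = 1`: `f = 0`
    refine ⟨0, fun x => ?_⟩
    have := hf (Pi.single x 1) (fun y => by rw [hu y])
    rw [dot_single_right] at this
    simp [this]
  · simp only [not_forall] at hu
    obtain ⟨x, hx⟩ := hu
    -- the predecessor of `x`
    set y : P := u.symm x with hy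
    have huy : u y = x := by rw [hy]; exact u.apply_symm_apply x
    have hyx : y ≠ x := by
      intro h
      apply hx
      rw [← h] at huy ⊢
      exact huy
    set u' : Equiv.Perm P := Equiv.swap x (u x) * u with hu'
    have hcard : u'.support.card < u.support.card := Equiv.Perm.card_support_swap_mul hx
    have hu'x : u' x = x := by
      rw [hu', Equiv.Perm.mul_apply, Equiv.swap_apply_right]
    have hu'y : u' y = u x := by
      rw [hu', Equiv.Perm.mul_apply, huy, Equiv.swap_apply_left]
    have hu'z : ∀ z, z ≠ x → z ≠ y → u' z = u z := by
      intro z hzx hzy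
      rw [hu', Equiv.Perm.mul_apply]
      apply Equiv.swap_apply_of_ne_of_ne
      · intro h
        apply hzy
        rw [hy, ← h, Equiv.symm_apply_apply]
      · intro h
        exact hzx (u.injective h)
    -- move the mass at `x` to `y`
    set f' : P → ℤ := Function.update (Function.update f y (f y + f x)) x 0 with hf'
    have hf'x : f' x = 0 := by rw [hf', Function.update_self]
    have hf'y : f' y = f y + f x := by
      rw [hf', Function.update_of_ne hyx, Function.update_self]
    have hf'z : ∀ z, z ≠ x → z ≠ y → f' z = f z := by
      intro z hzx hzy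
      rw [hf', Function.update_of_ne hzx, Function.update_of_ne hzy]
    have hf'w : ∀ w' : P → ℤ, (∀ z, w' (u' z) = w' z) → dot f' w' = 0 := by
      intro w' hw'
      set w : P → ℤ := Function.update w' x (w' y) with hw
      have hwx : w x = w' y := by rw [hw, Function.update_self]
      have hwz : ∀ z, z ≠ x → w z = w' z := fun z hz => by rw [hw, Function.update_of_ne hz]
      have hwinv : ∀ z, w (u z) = w z := by
        intro z
        by_cases hzx : z = x
        · subst hzx
          rw [hwz _ hx, hwx, ← hu'y, hw' y]
        · by_cases hzy : z = y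
          · rw [hzy, huy, hwx, hwz _ hyx]
          · have h1 : u z ≠ x := by
              intro h
              apply hzy
              rw [hy, ← h, Equiv.symm_apply_apply]
            rw [hwz _ h1, hwz _ hzx, ← hu'z z hzx hzy, hw' z]
      have h0 := hf w hwinv
      rw [← h0]
      unfold dot
      rw [← Finset.add_sum_erase Finset.univ _ (Finset.mem_univ x),
        ← Finset.add_sum_erase Finset.univ (fun z => f z * w z) (Finset.mem_univ x)]
      have hymem : y ∈ Finset.univ.erase x := Finset.mem_erase.mpr ⟨hyx, Finset.mem_univ y⟩
      rw [← Finset.add_sum_erase _ _ hymem,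
        ← Finset.add_sum_erase _ (fun z => f z * w z) hymem]
      have e5 : ∑ z ∈ (Finset.univ.erase x).erase y, f' z * w' z =
          ∑ z ∈ (Finset.univ.erase x).erase y, f z * w z := by
        apply Finset.sum_congr rfl
        intro z hz
        have hzy : z ≠ y := (Finset.mem_erase.mp hz).1
        have hzx : z ≠ x := (Finset.mem_erase.mp (Finset.mem_erase.mp hz).2).1
        rw [hf'z z hzx hzy, hwz z hzx]
      rw [hf'x, hf'y, hwx, hwz y hyx, e5]
      ring
    obtain ⟨r', hr'⟩ := ih _ (hn ▸ hcard) u' rfl f' hf'w
    -- build `r`
    refine ⟨Function.update r' x (r' (u x) + f x), fun z => ?_⟩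
    by_cases hzx : z = x
    · subst hzx
      rw [Function.update_self, Function.update_of_ne hx]
      ring
    · by_cases hzy : z = y
      · rw [hzy, huy, Function.update_self, Function.update_of_ne hyx]
        have := hr' y
        rw [hf'y, hu'y] at this
        linarith
      · have h1 : u z ≠ x := by
          intro h
          apply hzy
          rw [hy, ← h, Equiv.symm_apply_apply]
        rw [Function.update_of_ne hzx, Function.update_of_ne h1]
        have := hr' z
        rw [hf'z z hzx hzy, hu'z z hzx hzy] at this
        exact this

end Fermat.Agent.S41.PDModel3
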