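/-
S41 / [PD-UNIMOD] (helper3), part 2: integral Poincaré duality in the Shapiro / `C₂ * C₃` model.

`P` a finite set with permutations `s`, `t`, `s² = 1`, `t³ = 1` (think `P = Γ' \ PSL₂(ℤ)`; fixed
points = elliptic points are allowed), `M = ℤ^P` with the standard form `dot`, `S = op s`,
`T = op t` (precomposition), `U = S ∘ T = op (t * s)` (its cycles are the cusps of `Γ'`).

* `A = (1-S)M ∩ (1-T)M`  (`= H₁(Γ')/torsion`, the cycles of the bipartite graph `(P/s ⊔ P/t, P)`),
* `I = M^S + M^T`, `B = M ⧸ I`  (`= Hom(Γ', ℤ)`), `dot` pairs `A` with `B`,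
* the splice map `J : A →+ B`, `J a = [k - n]` for `a = k - S k = n - T n`.

Results (all over `ℤ`, no division, uniform in the residue characteristic):
* `dot_splice_antisymm`         : `⟨a, J a'⟩ = -⟨a', J a⟩`;
* `J_eq_zero_iff`               : `ker J = {w - S w | U w = w}` (the parabolic cycles);
* `mk_mem_range_J_iff`          : `[m] ∈ range J ↔ ∃ r, m - S m = r - U r`;
* `parabolic_iff`               : `(∃ r, m - S m = r - U r) ↔ [m]` is orthogonal to all parabolic
                                  cycles (`= φ_m` vanishes on all parabolic elements);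
so `J` induces an isomorphism `A / (parabolic cycles) ≃ L = Hom_par(Γ', ℤ)`, i.e. the intersection
form `ω(J a, J a') = ⟨a, J a'⟩` on `L` is alternating and unimodular.
-/
import Mathlib
import Fermat.Agent.S41.PDModel3.Perp

set_option autoImplicit false
set_option linter.unusedSectionVars false

namespace Fermat.Agent.S41.PDModel3

variable {P : Type} [Fintype P] [DecidableEq P]

/-- precomposition with a permutation, as an additive endomorphism of `ℤ^P` -/
def op (g : Equiv.Perm P) : (P → ℤ) →+ (P → ℤ) where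
  toFun f := fun x => f (g x)
  map_zero' := rfl
  map_add' _ _ := rfl

@[simp] theorem op_apply (g : Equiv.Perm P) (f : P → ℤ) (x : P) : op g f x = f (g x) := rfl

theorem op_mul (g h : Equiv.Perm P) (f : P → ℤ) : op g (op h f) = op (h * g) f := by
  funext x
  simp [Equiv.Perm.mul_apply]

theorem dot_op (g : Equiv.Perm P) (f f' : P → ℤ) : dot (op g f) (op g f') = dot f f' :=
  dot_comp_perm g f f'

/-- the data: an involution `s` and an element `t` of order dividing `3` -/
structure Datum (P : Type) where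
  s : Equiv.Perm P
  t : Equiv.Perm P
  hs : ∀ x, s (s x) = x
  ht : ∀ x, t (t (t x)) = x

namespace Datum

variable (D : Datum P)

/-- `S = op s` -/
def S : (P → ℤ) →+ (P → ℤ) := op D.s
/-- `T = op t` -/
def T : (P → ℤ) →+ (P → ℤ) := op D.t
/-- `U = S ∘ T` (precomposition with `t * s`) -/
def U : (P → ℤ) →+ (P → ℤ) := D.S.comp D.T

theorem S_S (f : P → ℤ) : D.S (D.S f) = f := by
  funext x
  simp [S, D.hs]

theorem T_T_T (f : P → ℤ) : D.T (D.T (D.T f)) = f := by
  funext x
  simp [T, D.ht]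

theorem U_apply (f : P → ℤ) : D.U f = D.S (D.T f) := rfl

theorem U_eq_op (f : P → ℤ) : D.U f = op (D.t * D.s) f := by
  rw [U_apply, S, T, op_mul]

theorem dot_S (f g : P → ℤ) : dot (D.S f) (D.S g) = dot f g := dot_op D.s f g
theorem dot_T (f g : P → ℤ) : dot (D.T f) (D.T g) = dot f g := dot_op D.t f g

/-- `S` is self-adjoint -/
theorem dot_S_left (f g : P → ℤ) : dot (D.S f) g = dot f (D.S g) := by
  rw [← D.dot_S (D.S f) g, D.S_S]

/-- the adjoint of `T` is `T⁻¹ = T²` -/
theorem dot_T_left (f g : P → ℤ) : dot (D.T f) g = dot f (D.T (D.T g)) := by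
  rw [← D.dot_T f (D.T (D.T g)), D.T_T_T]

/-- `A = (1 - S) M ∩ (1 - T) M` -/
def A : AddSubgroup (P → ℤ) where
  carrier := {a | (∃ k, a = k - D.S k) ∧ (∃ n, a = n - D.T n)}
  zero_mem' := ⟨⟨0, by simp⟩, ⟨0, by simp⟩⟩
  add_mem' := by
    rintro a b ⟨⟨k, rfl⟩, ⟨n, hn⟩⟩ ⟨⟨k', rfl⟩, ⟨n', hn'⟩⟩
    refine ⟨⟨k + k', by rw [map_add]; abel⟩, ⟨n + n', ?_⟩⟩
    rw [hn, hn', map_add]
    abel
  neg_mem' := by
    rintro a ⟨⟨k, rfl⟩, ⟨n, hn⟩⟩
    refine ⟨⟨-k, by rw [map_neg]; abel⟩, ⟨-n, ?_⟩⟩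
    rw [hn, map_neg]
    abel

/-- `I = M^S + M^T` -/
def I : AddSubgroup (P → ℤ) where
  carrier := {m | ∃ y z, D.S y = y ∧ D.T z = z ∧ m = y + z}
  zero_mem' := ⟨0, 0, by simp, by simp, by simp⟩
  add_mem' := by
    rintro _ _ ⟨y, z, hy, hz, rfl⟩ ⟨y', z', hy', hz', rfl⟩
    exact ⟨y + y', z + z', by rw [map_add, hy, hy'], by rw [map_add, hz, hz'], by abel⟩
  neg_mem' := by
    rintro _ ⟨y, z, hy, hz, rfl⟩
    exact ⟨-y, -z, by rw [map_neg, hy], by rw [map_neg, hz], by abel⟩

theorem mem_A_iff {a : P → ℤ} : a ∈ D.A ↔ (∃ k, a = k - D.S k) ∧ (∃ n, a = n - D.T n) := Iff.rfl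

theorem mem_I_iff {m : P → ℤ} : m ∈ D.I ↔ ∃ y z, D.S y = y ∧ D.T z = z ∧ m = y + z := Iff.rfl

theorem S_mem_A {a : P → ℤ} (ha : a ∈ D.A) : D.S a = -a := by
  obtain ⟨⟨k, rfl⟩, -⟩ := ha
  rw [map_sub, D.S_S]
  abel

/-- `A` is orthogonal to `I`: the form `dot` pairs `A` with `B = M ⧸ I` -/
theorem dot_A_I {a i : P → ℤ} (ha : a ∈ D.A) (hi : i ∈ D.I) : dot a i = 0 := by
  obtain ⟨⟨k, hk⟩, ⟨n, hn⟩⟩ := ha
  obtain ⟨y, z, hy, hz, rfl⟩ := hi
  rw [dot_add_right]
  have h1 : dot a y = 0 := by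
    rw [hk, dot_sub_left]
    nth_rewrite 2 [← hy]
    rw [D.dot_S, sub_self]
  have h2 : dot a z = 0 := by
    rw [hn, dot_sub_left]
    nth_rewrite 2 [← hz]
    rw [D.dot_T, sub_self]
  rw [h1, h2, add_zero]

/-- `B = M ⧸ I` -/
abbrev B := (P → ℤ) ⧸ D.I

/-- a representative `k - n` of `J a` -/
noncomputable def spliceRep (a : D.A) : P → ℤ :=
  Classical.choose a.2.1 - Classical.choose a.2.2

/-- **`J a = [k - n]` for ANY `k`, `n` with `a = k - S k = n - T n`.** -/
theorem mk_spliceRep (a : D.A) {k n : P → ℤ} (hk : (a : P → ℤ) = k - D.S k)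
    (hn : (a : P → ℤ) = n - D.T n) :
    (QuotientAddGroup.mk (D.spliceRep a) : D.B) = QuotientAddGroup.mk (k - n) := by
  rw [QuotientAddGroup.eq]
  have hk0 := Classical.choose_spec a.2.1
  have hn0 := Classical.choose_spec a.2.2
  set k0 := Classical.choose a.2.1
  set n0 := Classical.choose a.2.2
  refine ⟨k - k0, -(n - n0), ?_, ?_, ?_⟩
  · have : k0 - D.S k0 = k - D.S k := hk0.symm.trans hk
    rw [map_sub]
    have h2 : D.S k - D.S k0 = k - k0 := by
      have e : D.S k - D.S k0 - (k - k0) = (k0 - D.S k0) - (k - D.S k) := by abel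
      rw [this, sub_self] at e
      exact sub_eq_zero.mp e
    exact h2
  · have : n0 - D.T n0 = n - D.T n := hn0.symm.trans hn
    rw [map_neg, map_sub]
    have h2 : D.T n - D.T n0 = n - n0 := by
      have e : D.T n - D.T n0 - (n - n0) = (n0 - D.T n0) - (n - D.T n) := by abel
      rw [this, sub_self] at e
      exact sub_eq_zero.mp e
    rw [h2]
  · unfold spliceRep
    abel

/-- the splice map `J : A →+ B` -/
noncomputable def J : D.A →+ D.B where
  toFun a := QuotientAddGroup.mk (D.spliceRep a)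
  map_zero' := by
    rw [D.mk_spliceRep 0 (k := 0) (n := 0) (by simp) (by simp)]
    simp
  map_add' a b := by
    have ha1 := Classical.choose_spec a.2.1
    have ha2 := Classical.choose_spec a.2.2
    have hb1 := Classical.choose_spec b.2.1
    have hb2 := Classical.choose_spec b.2.2
    rw [D.mk_spliceRep (a + b) (k := Classical.choose a.2.1 + Classical.choose b.2.1)
      (n := Classical.choose a.2.2 + Classical.choose b.2.2)
      (by rw [AddSubgroup.coe_add, map_add]; nth_rewrite 1 [ha1, hb1]; abel)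
      (by rw [AddSubgroup.coe_add, map_add]; nth_rewrite 1 [ha2, hb2]; abel)]
    rw [← QuotientAddGroup.mk_add]
    congr 1
    unfold spliceRep
    abel

theorem J_apply (a : D.A) {k n : P → ℤ} (hk : (a : P → ℤ) = k - D.S k)
    (hn : (a : P → ℤ) = n - D.T n) : D.J a = QuotientAddGroup.mk (k - n) :=
  D.mk_spliceRep a hk hn

/-- **`ker J` = the parabolic cycles** `w - S w`, `w` invariant under `U = S T`. -/
theorem J_eq_zero_iff (a : D.A) :
    D.J a = 0 ↔ ∃ w : P → ℤ, D.U w = w ∧ (a : P → ℤ) = w - D.S w := by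
  obtain ⟨⟨k, hk⟩, ⟨n, hn⟩⟩ := a.2
  rw [D.J_apply a hk hn, QuotientAddGroup.eq_zero_iff]
  constructor
  · rintro ⟨y, z, hy, hz, hkn⟩
    -- `w := k - y = n + z`
    have hw : k - y = n + z := by
      have : k - y - (n + z) = (k - n) - (y + z) := by abel
      rw [hkn, sub_self] at this
      exact sub_eq_zero.mp this
    have h1 : (a : P → ℤ) = (k - y) - D.S (k - y) := by
      rw [map_sub, hy, hk]
      abel
    have h2 : (a : P → ℤ) = (k - y) - D.T (k - y) := by
      rw [hw, map_add, hz, hn]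
      abel
    refine ⟨k - y, ?_, h1⟩
    have h3 : D.S (k - y) = D.T (k - y) := by
      have : (k - y) - D.S (k - y) = (k - y) - D.T (k - y) := h1.symm.trans h2
      exact sub_right_injective this
    rw [U_apply, ← h3, D.S_S]
  · rintro ⟨w, hw, haw⟩
    have h3 : D.T w = D.S w := by
      have := congrArg D.S hw
      rw [U_apply, D.S_S] at this
      exact this
    have hk' : k - D.S k = w - D.S w := hk.symm.trans haw
    have hn' : n - D.T n = w - D.T w := by rw [h3]; exact hn.symm.trans haw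
    refine ⟨k - w, -(n - w), ?_, ?_, by abel⟩
    · rw [map_sub]
      have e : D.S k - D.S w - (k - w) = (w - D.S w) - (k - D.S k) := by abel
      rw [hk', sub_self] at e
      exact sub_eq_zero.mp e
    · rw [map_neg, map_sub]
      have e : D.T n - D.T w - (n - w) = (w - D.T w) - (n - D.T n) := by abel
      rw [hn', sub_self] at e
      rw [sub_eq_zero.mp e]

/-- **`range J` = the classes `[m]` with `m - S m ∈ (1 - U) M`** (the unimodularity step). -/
theorem mk_mem_range_J_iff (m : P → ℤ) :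
    (QuotientAddGroup.mk m : D.B) ∈ D.J.range ↔ ∃ r : P → ℤ, m - D.S m = r - D.U r := by
  constructor
  · rintro ⟨a, ha⟩
    obtain ⟨⟨k, hk⟩, ⟨n, hn⟩⟩ := a.2
    rw [D.J_apply a hk hn, QuotientAddGroup.eq] at ha
    obtain ⟨y, z, hy, hz, hi⟩ := ha
    -- `m = (k - n) + (y + z)`, `r := -n + z`
    have hm : m = (k - n) + (y + z) := by
      rw [← hi]
      abel
    have hSa : D.S (n - D.T n) = -(n - D.T n) := by
      rw [← hn]
      exact D.S_mem_A a.2
    refine ⟨-n + z, ?_⟩
    rw [hm, U_apply]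
    simp only [map_add, map_sub, map_neg, hy, hz]
    have e1 : k - D.S k = n - D.T n := hk.symm.trans hn
    rw [map_sub] at hSa
    rw [← sub_eq_zero]
    have : k - n + (y + z) - (D.S k - D.S n + (y + D.S z)) - (-n + z - (-D.S (D.T n) + D.S z)) =
        (k - D.S k) + (D.S n - D.S (D.T n)) := by abel
    rw [this, e1, hSa]
    abel
  · rintro ⟨r, hr⟩
    -- `a := (r - m) - S (r - m) = r - T r`
    have hc : (r - m) - D.S (r - m) = -D.S (r - D.T r) := by
      rw [map_sub, map_sub]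
      have : r - m - (D.S r - D.S m) = (r - D.S r) - (m - D.S m) := by abel
      rw [this, hr, U_apply]
      abel
    have hx : r - D.T r = (r - m) - D.S (r - m) := by
      have h1 : D.S ((r - m) - D.S (r - m)) = -((r - m) - D.S (r - m)) := by
        rw [map_sub, D.S_S]
        abel
      have h2 := congrArg D.S hc
      rw [h1, map_neg, D.S_S] at h2
      have : r - D.T r = -(-(r - D.T r)) := by abel
      rw [this, ← h2]
      abel
    have ha : (r - D.T r) ∈ D.A := ⟨⟨r - m, hx⟩, ⟨r, rfl⟩⟩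
    refine ⟨-⟨r - D.T r, ha⟩, ?_⟩
    rw [map_neg, D.J_apply ⟨r - D.T r, ha⟩ (k := r - m) (n := r) hx rfl]
    rw [← QuotientAddGroup.mk_neg]
    congr 1
    abel

/-- **Antisymmetry** of `(a, a') ↦ ⟨a, J a'⟩`, on representatives. -/
theorem dot_splice_antisymm {a a' k n k' n' : P → ℤ} (hk : a = k - D.S k) (hn : a = n - D.T n)
    (hk' : a' = k' - D.S k') (hn' : a' = n' - D.T n') :
    dot a (k' - n') = - dot a' (k - n) := by
  have hSa' : D.S a' = -a' := by
    rw [hk', map_sub, D.S_S]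
    abel
  -- `⟨a, k'⟩ = ⟨k, a'⟩`
  have h1 : dot a k' = dot k a' := by
    rw [hk, hk', dot_sub_left, dot_sub_right, D.dot_S_left]
  -- `⟨a, n'⟩ = -⟨T n, a'⟩`
  have h2 : dot a n' = - dot (D.T n) a' := by
    rw [hn, hn', dot_sub_left, dot_sub_right, D.dot_T]
    ring
  -- `⟨a, a'⟩ = 2 ⟨k, a'⟩`
  have h3 : dot a a' = 2 * dot k a' := by
    nth_rewrite 1 [hk]
    rw [dot_sub_left, D.dot_S_left, hSa', dot_neg_right]
    ring
  have h4 : dot a' (k - n) = dot k a' - dot n a' := by
    rw [dot_sub_right, dot_comm a' k, dot_comm a' n]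
  have h5 : dot a a' = dot n a' - dot (D.T n) a' := by
    nth_rewrite 1 [hn]
    rw [dot_sub_left]
  rw [dot_sub_right, h1, h2, h4]
  linarith

theorem dot_U (f g : P → ℤ) : dot (D.U f) (D.U g) = dot f g := by
  rw [U_apply, U_apply, D.dot_S, D.dot_T]

/-- `⟨w - S w, m⟩ = ⟨w, m - S m⟩` -/
theorem dot_sub_S_left (w m : P → ℤ) : dot (w - D.S w) m = dot w (m - D.S m) := by
  rw [dot_sub_left, dot_sub_right, D.dot_S_left]

/-- **The parabolic condition.**  `m - S m ∈ (1 - U) M` iff `[m]` is orthogonal to all parabolic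
cycles `w - S w` (`U w = w`), i.e. iff the homomorphism `φ_m` vanishes on every parabolic element
(`φ_m(γ_c) = -⟨m, (1 - S) O_c⟩` for the cusp `c` = the `U`-orbit `O_c`). -/
theorem parabolic_iff (m : P → ℤ) :
    (∃ r : P → ℤ, m - D.S m = r - D.U r) ↔
      ∀ w : P → ℤ, D.U w = w → dot (w - D.S w) m = 0 := by
  constructor
  · rintro ⟨r, hr⟩ w hw
    rw [D.dot_sub_S_left, hr, dot_sub_right]
    nth_rewrite 2 [← hw]
    rw [D.dot_U, sub_self]
  · intro h
    obtain ⟨r, hr⟩ := exists_eq_sub_comp (D.t * D.s) (m - D.S m) (fun w hw => by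
      have hUw : D.U w = w := by
        rw [D.U_eq_op]
        funext x
        exact hw x
      rw [dot_comm, ← D.dot_sub_S_left]
      exact h w hUw)
    refine ⟨r, ?_⟩
    funext x
    rw [hr x, D.U_eq_op]
    rfl

/-- `A` is the orthogonal of `M^S` and `M^T`: `A = (M^S + M^T)^⊥`, the cycle space. -/
theorem mem_A_iff_perp (a : P → ℤ) :
    a ∈ D.A ↔ (∀ y : P → ℤ, D.S y = y → dot a y = 0) ∧ (∀ z : P → ℤ, D.T z = z → dot a z = 0) := by
  constructor
  · intro ha
    refine ⟨fun y hy => D.dot_A_I ha ⟨y, 0, hy, by simp, by simp⟩,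
      fun z hz => D.dot_A_I ha ⟨0, z, by simp, hz, by simp⟩⟩
  · rintro ⟨h1, h2⟩
    obtain ⟨k, hk⟩ := exists_eq_sub_comp D.s a (fun w hw => h1 w (by
      funext x
      exact hw x))
    obtain ⟨n, hn⟩ := exists_eq_sub_comp D.t a (fun w hw => h2 w (by
      funext x
      exact hw x))
    exact ⟨⟨k, funext fun x => hk x⟩, ⟨n, funext fun x => hn x⟩⟩

/-- **`L`** : the classes of `B = Hom(Γ', ℤ)` vanishing on the parabolic elements. -/
noncomputable def L : AddSubgroup D.B := D.J.range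

theorem mk_mem_L_iff (m : P → ℤ) :
    (QuotientAddGroup.mk m : D.B) ∈ D.L ↔ ∀ w : P → ℤ, D.U w = w → dot (w - D.S w) m = 0 := by
  rw [L, D.mk_mem_range_J_iff, D.parabolic_iff]

/-- **INTEGRAL POINCARÉ DUALITY (model form).**  The splice map induces an ISOMORPHISM
`A ⧸ ker J ≃+ L`: cycles modulo parabolic cycles ≃ homomorphisms vanishing on parabolic elements,
for every finite `C₂ * C₃`-set `P`, over `ℤ`. -/
noncomputable def JEquiv : (D.A ⧸ D.J.ker) ≃+ D.L :=
  QuotientAddGroup.quotientKerEquivRange D.J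

theorem mem_ker_J_iff (a : D.A) :
    a ∈ D.J.ker ↔ ∃ w : P → ℤ, D.U w = w ∧ (a : P → ℤ) = w - D.S w := by
  rw [AddMonoidHom.mem_ker, D.J_eq_zero_iff]

/-- the pairing `⟨a, b⟩` of a cycle with a class, on a representative -/
theorem dot_rep_congr {a : P → ℤ} (ha : a ∈ D.A) {m m' : P → ℤ}
    (h : (QuotientAddGroup.mk m : D.B) = QuotientAddGroup.mk m') : dot a m = dot a m' := by
  rw [QuotientAddGroup.eq] at h
  have := D.dot_A_I ha h
  rw [dot_add_right, dot_neg_right] at this
  linarith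

/-- **the intersection form is well defined on `L`**: a parabolic cycle pairs trivially with
every class of `L`. -/
theorem dot_ker_L {a : D.A} (ha : a ∈ D.J.ker) {m : P → ℤ}
    (hm : (QuotientAddGroup.mk m : D.B) ∈ D.L) : dot (a : P → ℤ) m = 0 := by
  obtain ⟨w, hw, haw⟩ := (D.mem_ker_J_iff a).1 ha
  rw [haw]
  exact (D.mk_mem_L_iff m).1 hm w hw

end Datum

end Fermat.Agent.S41.PDModel3
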