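/-
S41 / [PD-UNIMOD] (helper3), part 3: the intersection form `ω` on `L` and its non-degeneracy.

* `I_saturated`      : `I = M^S + M^T` is saturated in `ℤ^P` (so `B = M ⧸ I` is torsion-free);
* `pair : A →+ B →+ ℤ`, `omega : L →+ L →+ ℤ` with `omega (J a) y = pair a y`;
* `omega_antisymm`, `omega_self`;
* `L_saturated`      : `L` is saturated in `B`;
* `omega_nondeg_mod` : if `p ∣ ω(x, y)` for all `y ∈ L` then `x ∈ p L` (from the two generic lattice
                       facts `hL1 : A^⊥ ⊆ I`, `hL2 : Hom(A, ℤ)` is represented by `ℤ^P`).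
-/
import Mathlib
import Fermat.Agent.S41.PDModel3.Unimod

set_option autoImplicit false
set_option linter.unusedSectionVars false

namespace Fermat.Agent.S41.PDModel3

variable {P : Type} [Fintype P] [DecidableEq P]

theorem dot_smul_right (n : ℤ) (f g : P → ℤ) : dot f (n • g) = n * dot f g := by
  unfold dot
  rw [Finset.mul_sum]
  exact Finset.sum_congr rfl fun x _ => by simp; ring

theorem dot_smul_left (n : ℤ) (f g : P → ℤ) : dot (n • f) g = n * dot f g := by
  rw [dot_comm, dot_smul_right, dot_comm]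

/-- `dot f ·` as an additive map -/
def dotHom (f : P → ℤ) : (P → ℤ) →+ ℤ where
  toFun g := dot f g
  map_zero' := dot_zero_right f
  map_add' := dot_add_right f

@[simp] theorem dotHom_apply (f g : P → ℤ) : dotHom f g = dot f g := rfl

namespace Datum

variable (D : Datum P)

/-- **(O1)** `I = M^S + M^T` is saturated. -/
theorem I_saturated (n : ℤ) (hn : n ≠ 0) (m : P → ℤ) (h : n • m ∈ D.I) : m ∈ D.I := by
  obtain ⟨y, z, hy, hz, hyz⟩ := h
  have hpt : ∀ x, n * m x = y x + z x := fun x => by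
    have := congrFun hyz x
    simpa using this
  have hyS : ∀ x, y (D.s x) = y x := fun x => congrFun hy x
  have hzT : ∀ x, z (D.t x) = z x := fun x => congrFun hz x
  have hmod : ∀ x, y (D.t x) % n = y x % n := by
    intro x
    have h1 := hpt (D.t x)
    have h2 := hpt x
    rw [hzT x] at h1
    have : (y (D.t x)) ≡ (y x) [ZMOD n] := by
      rw [Int.modEq_iff_dvd]
      exact ⟨m x - m (D.t x), by linarith⟩
    exact this
  refine ⟨fun x => y x / n, m - fun x => y x / n, ?_, ?_, by abel⟩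
  · funext x
    show y (D.s x) / n = y x / n
    rw [hyS]
  · funext x
    show m (D.t x) - y (D.t x) / n = m x - y x / n
    have h1 := hpt (D.t x)
    have h2 := hpt x
    rw [hzT x] at h1
    have e1 := Int.mul_ediv_add_emod (y (D.t x)) n
    have e2 := Int.mul_ediv_add_emod (y x) n
    have e3 := hmod x
    have : n * (m (D.t x) - y (D.t x) / n) = n * (m x - y x / n) := by
      rw [mul_sub, mul_sub]
      linarith
    exact mul_left_cancel₀ hn this

/-- the pairing `A × B → ℤ` induced by `dot` -/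
noncomputable def pair : D.A →+ D.B →+ ℤ where
  toFun a := QuotientAddGroup.lift D.I (dotHom (a : P → ℤ))
    (fun i hi => (AddMonoidHom.mem_ker).2 (D.dot_A_I a.2 hi))
  map_zero' := by
    apply QuotientAddGroup.addMonoidHom_ext
    ext m
    simp [dot_zero_left]
  map_add' a b := by
    apply QuotientAddGroup.addMonoidHom_ext
    ext m
    simp [dot_add_left]

@[simp] theorem pair_mk (a : D.A) (m : P → ℤ) :
    D.pair a (QuotientAddGroup.mk m : D.B) = dot (a : P → ℤ) m := rfl

/-- the pairing `A × L → ℤ` -/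
noncomputable def pairL : D.A →+ D.L →+ ℤ where
  toFun a := (D.pair a).comp D.L.subtype
  map_zero' := by
    ext y
    simp
  map_add' a b := by
    ext y
    simp

@[simp] theorem pairL_apply (a : D.A) (y : D.L) : D.pairL a y = D.pair a (y : D.B) := rfl

theorem pairL_ker : D.J.ker ≤ D.pairL.ker := by
  intro a ha
  rw [AddMonoidHom.mem_ker]
  ext y
  obtain ⟨m, hm⟩ := QuotientAddGroup.mk_surjective (y : D.B)
  rw [pairL_apply, ← hm, pair_mk]
  have hy : (QuotientAddGroup.mk m : D.B) ∈ D.L := by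
    rw [hm]
    exact y.2
  simpa using D.dot_ker_L ha hy

/-- **(O2) the intersection form** `ω : L →+ L →+ ℤ`, `ω (J a, y) = ⟨a, y⟩`. -/
noncomputable def omega : D.L →+ D.L →+ ℤ :=
  (QuotientAddGroup.lift D.J.ker D.pairL D.pairL_ker).comp D.JEquiv.symm.toAddMonoidHom

theorem J_mem_L (a : D.A) : D.J a ∈ D.L := ⟨a, rfl⟩

theorem JEquiv_mk (a : D.A) :
    D.JEquiv (QuotientAddGroup.mk a) = ⟨D.J a, D.J_mem_L a⟩ := rfl

theorem omega_J (a : D.A) (y : D.L) : D.omega ⟨D.J a, D.J_mem_L a⟩ y = D.pair a (y : D.B) := by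
  unfold omega
  rw [AddMonoidHom.comp_apply]
  have : D.JEquiv.symm.toAddMonoidHom ⟨D.J a, D.J_mem_L a⟩ = QuotientAddGroup.mk a := by
    rw [← D.JEquiv_mk a]
    exact D.JEquiv.symm_apply_apply _
  rw [this]
  rfl

theorem exists_J_eq (x : D.L) : ∃ a : D.A, x = ⟨D.J a, D.J_mem_L a⟩ := by
  obtain ⟨a, ha⟩ := x.2
  exact ⟨a, Subtype.ext ha.symm⟩

/-- `J` as a (surjective) map onto `L` -/
noncomputable def JL : D.A →+ D.L := D.J.codRestrict D.L D.J_mem_L

@[simp] theorem JL_apply (a : D.A) : D.JL a = ⟨D.J a, D.J_mem_L a⟩ := rfl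

theorem JL_surjective : Function.Surjective D.JL := fun x => by
  obtain ⟨a, ha⟩ := D.exists_J_eq x
  exact ⟨a, ha.symm⟩

theorem JL_eq_zero_iff (a : D.A) : D.JL a = 0 ↔ D.J a = 0 := by
  rw [JL_apply]
  constructor
  · intro h
    exact congrArg Subtype.val h
  · intro h
    exact Subtype.ext h

/-- `ω` in terms of the splice map on both sides -/
theorem omega_J_J (a a' : D.A) :
    D.omega ⟨D.J a, D.J_mem_L a⟩ ⟨D.J a', D.J_mem_L a'⟩ = D.pair a (D.J a') :=
  D.omega_J a _

theorem pair_J_antisymm (a a' : D.A) : D.pair a (D.J a') = - D.pair a' (D.J a) := by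
  obtain ⟨⟨k, hk⟩, ⟨n, hn⟩⟩ := a.2
  obtain ⟨⟨k', hk'⟩, ⟨n', hn'⟩⟩ := a'.2
  rw [D.J_apply a hk hn, D.J_apply a' hk' hn', pair_mk, pair_mk]
  exact D.dot_splice_antisymm hk hn hk' hn'

/-- **`ω` is antisymmetric** -/
theorem omega_antisymm (x y : D.L) : D.omega x y = - D.omega y x := by
  obtain ⟨a, rfl⟩ := D.exists_J_eq x
  obtain ⟨a', rfl⟩ := D.exists_J_eq y
  rw [D.omega_J_J, D.omega_J_J]
  exact D.pair_J_antisymm a a'

/-- **`ω` is alternating** -/
theorem omega_self (x : D.L) : D.omega x x = 0 := by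
  have := D.omega_antisymm x x
  linarith

/-- a parabolic cycle `w - S w` (`U w = w`) lies in `A` -/
theorem parabolic_mem_A {w : P → ℤ} (hw : D.U w = w) : w - D.S w ∈ D.A := by
  have h3 : D.T w = D.S w := by
    have := congrArg D.S hw
    rw [U_apply, D.S_S] at this
    exact this
  exact ⟨⟨w, rfl⟩, ⟨w, by rw [h3]⟩⟩

/-- **`L` is saturated in `B`.** -/
theorem L_saturated (n : ℤ) (hn : n ≠ 0) (b : D.B) (h : n • b ∈ D.L) : b ∈ D.L := by
  obtain ⟨m, rfl⟩ := QuotientAddGroup.mk_surjective b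
  rw [D.mk_mem_L_iff]
  intro w hw
  have h' : (QuotientAddGroup.mk (n • m) : D.B) ∈ D.L := h
  have := (D.mk_mem_L_iff (n • m)).1 h' w hw
  rw [dot_smul_right] at this
  rcases mul_eq_zero.1 this with h0 | h0
  · exact absurd h0 hn
  · exact h0

/-- **(O3) non-degeneracy of `ω` modulo `p`** (the statement consumed by the Ribet algebra), from
the two generic lattice facts for `A = I^⊥ ⊆ ℤ^P`:
`hL1 : A^⊥ ⊆ I` and `hL2` : every functional on `A` is `⟨·, m⟩`. -/
theorem omega_nondeg_mod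
    (hL1 : ∀ m : P → ℤ, (∀ a ∈ D.A, dot a m = 0) → m ∈ D.I)
    (hL2 : ∀ lam : D.A →+ ℤ, ∃ m : P → ℤ, ∀ a : D.A, lam a = dot (a : P → ℤ) m)
    (p : ℤ) (hp : p ≠ 0) (x : D.L) (h : ∀ y : D.L, p ∣ D.omega x y) :
    ∃ w : D.L, x = p • w := by
  obtain ⟨m, hm⟩ := QuotientAddGroup.mk_surjective (x : D.B)
  -- `p ∣ ⟨a, m⟩` for all cycles `a`
  have hdiv : ∀ a : D.A, p ∣ dot (a : P → ℤ) m := by
    intro a
    have h1 := h ⟨D.J a, D.J_mem_L a⟩
    rw [D.omega_antisymm, D.omega_J, ← hm, pair_mk] at h1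
    exact (dvd_neg.1 h1)
  -- the functional `a ↦ ⟨a, m⟩ / p`
  let lam : D.A →+ ℤ :=
    { toFun := fun a => dot (a : P → ℤ) m / p
      map_zero' := by simp [dot_zero_left]
      map_add' := fun a b => by
        show dot ((a + b : D.A) : P → ℤ) m / p = _
        rw [AddSubgroup.coe_add, dot_add_left, Int.add_ediv_of_dvd_left (hdiv a)] }
  obtain ⟨m', hm'⟩ := hL2 lam
  have hlam : ∀ a : D.A, p * dot (a : P → ℤ) m' = dot (a : P → ℤ) m := by
    intro a
    rw [← hm' a]
    exact Int.mul_ediv_cancel' (hdiv a)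
  have hI : m - p • m' ∈ D.I := by
    apply hL1
    intro a ha
    rw [dot_sub_right, dot_smul_right, hlam ⟨a, ha⟩, sub_self]
  have hxL : (QuotientAddGroup.mk m : D.B) ∈ D.L := by
    rw [hm]
    exact x.2
  have hw : (QuotientAddGroup.mk m' : D.B) ∈ D.L := by
    apply D.L_saturated p hp
    have : p • (QuotientAddGroup.mk m' : D.B) = QuotientAddGroup.mk m := by
      rw [← QuotientAddGroup.mk_zsmul]
      symm
      rw [QuotientAddGroup.eq]
      have : -m + p • m' = -(m - p • m') := by abel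
      rw [this]
      exact D.I.neg_mem hI
    rw [this]
    exact hxL
  refine ⟨⟨QuotientAddGroup.mk m', hw⟩, Subtype.ext ?_⟩
  rw [AddSubgroup.coe_zsmul, ← hm, ← QuotientAddGroup.mk_zsmul, QuotientAddGroup.eq]
  have : -m + p • m' = -(m - p • m') := by abel
  rw [this]
  exact D.I.neg_mem hI

end Datum

end Fermat.Agent.S41.PDModel3
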