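/-
S41 / [PD-UNIMOD] (helper3), part 6: the bridge between the model intersection form and the
"cusp-sum" expression of [PD-COMM].

For cycles `a, a' ∈ A`:   `6 * ⟨a, J a'⟩ = -(⟨a, a'⟩ + 2 ⟨a, T a'⟩)`,
i.e. `ω(J a, J a') = -(1/6) (⟨a, a'⟩ + 2 ⟨a, T a'⟩)`, the value `ε (K (s t))` of the primitive of the
cup product of the two normalised crossed homs with `z s = z t = a`, `z' s = z' t = a'`
(PDComm92 (K2), PDInt81 `sum_cusps_eq_normalised`).
-/
import Mathlib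
import Fermat.Agent.S41.PDModel3.Omega

set_option autoImplicit false
set_option linter.unusedSectionVars false

namespace Fermat.Agent.S41.PDModel3

variable {P : Type} [Fintype P] [DecidableEq P]

namespace Datum

variable (D : Datum P)

/-- the adjoint of `T` is `T²` (right-hand version) -/
theorem dot_T_right' (f g : P → ℤ) : dot f (D.T g) = dot (D.T (D.T f)) g := by
  rw [← D.dot_T (D.T (D.T f)) g, D.T_T_T]

/-- elements of `(1 - T) M` are killed by the norm `1 + T + T²` -/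
theorem norm_T_eq_zero {a : P → ℤ} (ha : ∃ n, a = n - D.T n) : a + D.T a + D.T (D.T a) = 0 := by
  obtain ⟨n, rfl⟩ := ha
  simp only [map_sub, D.T_T_T]
  abel

/-- **the bridge on representatives**: for `a ∈ A` and `a' = k' - S k' = n' - T n'`,
`6 ⟨a, k' - n'⟩ = -(⟨a, a'⟩ + 2 ⟨a, T a'⟩)`. -/
theorem six_mul_dot_splice {a a' k' n' : P → ℤ} (ha : a ∈ D.A) (hk' : a' = k' - D.S k')
    (hn' : a' = n' - D.T n') :
    6 * dot a (k' - n') = -(dot a a' + 2 * dot a (D.T a')) := by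
  have hSa : D.S a = -a := D.S_mem_A ha
  have hnorm := D.norm_T_eq_zero ha.2
  -- `2 ⟨a, k'⟩ = ⟨a, a'⟩`
  have h1 : dot a a' = 2 * dot a k' := by
    rw [hk', dot_sub_right, ← D.dot_S_left, hSa, dot_neg_left]
    ring
  -- `p₀ = ⟨a, n'⟩`, `p₁ = ⟨a, T n'⟩ = ⟨T² a, n'⟩`, `p₂ = ⟨a, T² n'⟩ = ⟨T a, n'⟩`
  have hp1 : dot a (D.T n') = dot (D.T (D.T a)) n' := D.dot_T_right' a n'
  have hp2 : dot a (D.T (D.T n')) = dot (D.T a) n' := by
    rw [D.dot_T_right', D.dot_T_right', D.T_T_T]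
  have h2 : dot a a' = dot a n' - dot (D.T (D.T a)) n' := by
    rw [hn', dot_sub_right, hp1]
  have h3 : dot a (D.T a') = dot (D.T (D.T a)) n' - dot (D.T a) n' := by
    rw [hn', map_sub, dot_sub_right, hp1, hp2]
  have h4 : dot a n' + dot (D.T a) n' + dot (D.T (D.T a)) n' = 0 := by
    rw [← dot_add_left, ← dot_add_left, hnorm, dot_zero_left]
  rw [dot_sub_right]
  linarith

/-- **the bridge**: `6 ⟨a, J a'⟩ = -(⟨a, a'⟩ + 2 ⟨a, T a'⟩)` for cycles `a, a'`. -/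
theorem six_mul_pair_J (a a' : D.A) :
    6 * D.pair a (D.J a') = -(dot (a : P → ℤ) a' + 2 * dot (a : P → ℤ) (D.T a')) := by
  obtain ⟨⟨k', hk'⟩, ⟨n', hn'⟩⟩ := a'.2
  rw [D.J_apply a' hk' hn', pair_mk]
  exact D.six_mul_dot_splice a.2 hk' hn'

/-- **the bridge for `ω`**: `6 ω(J a, J a') = -(⟨a, a'⟩ + 2 ⟨a, T a'⟩)`. -/
theorem six_mul_omega_J_J (a a' : D.A) :
    6 * D.omega ⟨D.J a, D.J_mem_L a⟩ ⟨D.J a', D.J_mem_L a'⟩ =
      -(dot (a : P → ℤ) a' + 2 * dot (a : P → ℤ) (D.T a')) := by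
  rw [D.omega_J_J]
  exact D.six_mul_pair_J a a'

/-- the cusp-sum form `⟨a, a'⟩ + 2 ⟨a, T a'⟩` is divisible by `6` on cycles -/
theorem six_dvd_cuspForm (a a' : D.A) :
    (6 : ℤ) ∣ dot (a : P → ℤ) a' + 2 * dot (a : P → ℤ) (D.T a') := by
  have := D.six_mul_pair_J a a'
  exact ⟨-(D.pair a (D.J a')), by linarith⟩

/-- `ω` is non-degenerate on the right as well -/
theorem omega_right_injective_of_left
    (hleft : ∀ x : D.L, (∀ y : D.L, D.omega x y = 0) → x = 0)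
    (y : D.L) (h : ∀ x : D.L, D.omega x y = 0) : y = 0 :=
  hleft y fun x => by rw [D.omega_antisymm, h x, neg_zero]

end Datum

end Fermat.Agent.S41.PDModel3
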