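/-
S41 / [PD-UNIMOD] ∩ [PD-COMM] (helper3): the glue between the model intersection form `ω`
(`PDModel3`) and the intrinsic cusp sum (`CuspSum22`).

* `six_mul_tot_K`  : the generator formula `6 ε(K (s u)) = ε(m m') + 2 ε(m · u m')` for a primitive `K`
  of the cup product of two crossed homs with `z s = z u = m`, `z' s = z' u = m'`, for generators
  `s`, `u` whose square / cube only ACT trivially (as `S`, `S T` in `SL(2, ℤ)`), no division;
* `coc_central_eq_zero`, `prim_central_eq_zero` : the side conditions from a central involution;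
* `datumOf s u` : the `PDModel3.Datum` on a finite `G`-set with `D.S = act s`, `D.T = act u`;
* `cuspSum_eq_neg_omega` : `∑ over cusps of κ (γ_c) = - ω(J a, J a')` for EVERY `κ` with
  `κ (γ δ) = κ γ + κ δ - φ γ * ψ δ`, `φ = ev z`, `ψ = ev z'`.
-/
import Mathlib
import Fermat.Agent.S41.CuspSum22.Core
import Fermat.Agent.S41.PDModel3.Bridge

set_option autoImplicit false
set_option linter.unusedSectionVars false

namespace Fermat.Agent.S41.PDModel3

open Fermat.Agent.S41.CuspSum22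

section Gen

variable {G : Type*} [Group G] {Ω : Type*} [MulAction G Ω] [Fintype Ω] {R : Type*} [CommRing R]

/-- the total sum of a function on `Ω` -/
def tot (f : Ω → R) : R := ∑ ω, f ω

theorem tot_add (f g : Ω → R) : tot (f + g) = tot f + tot g := by
  unfold tot
  simp [Finset.sum_add_distrib]

theorem tot_sub (f g : Ω → R) : tot (f - g) = tot f - tot g := by
  unfold tot
  simp [Finset.sum_sub_distrib]

theorem tot_neg (f : Ω → R) : tot (-f) = - tot f := by
  unfold tot
  simp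

theorem tot_act (g : G) (f : Ω → R) : tot (act g f) = tot f := sum_act g f

/-- **(G1) the generator formula**, for `s`, `u` whose square / cube act trivially. -/
theorem six_mul_tot_K {s u : G} {z z' K : G → Ω → R} {m m' : Ω → R}
    (hK : IsPrim z z' K) (hz : IsCoc z) (hz' : IsCoc z')
    (hzs : z s = m) (hzu : z u = m) (hz's : z' s = m') (hz'u : z' u = m')
    (hss' : z' (s * s) = 0) (huuu' : z' (u * u * u) = 0)
    (hKss : tot (K (s * s)) = 0) (hKuuu : tot (K (u * u * u)) = 0) :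
    6 * tot (K (s * u)) = tot (m * m') + 2 * tot (m * act u m') := by
  -- `s m' = -m'`
  have hsm' : act s m' = -m' := by
    have h := hz' s s
    rw [hss', hz's] at h
    exact eq_neg_of_add_eq_zero_right h.symm
  -- `u² m' = -m' - u m'`
  have hz'uu : z' (u * u) = m' + act u m' := by rw [hz' u u, hz'u]
  have huum' : act (u * u) m' = -m' - act u m' := by
    have h := hz' (u * u) u
    rw [huuu', hz'uu, hz'u] at h
    have : act (u * u) m' = -(m' + act u m') := eq_neg_of_add_eq_zero_right h.symm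
    rw [this]
    abel
  -- (A) `2 ε(K s) = -ε(m m')`
  have hA : tot (K (s * s)) = tot (K s) + tot (K s) + tot (m * m') := by
    have h : K (s * s) = K s + act s (K s) + m * m' := by
      rw [hK s s, hzs, hz's, hsm']
      ring
    rw [h, tot_add, tot_add, tot_act]
  -- (B) `3 ε(K u) = ε(m · u m') - ε(m m')`
  have hKuu : K (u * u) = K u + act u (K u) - m * act u m' := by
    rw [hK u u, hzu, hz'u]
  have hzuu : z (u * u) = m + act u m := by rw [hz u u, hzu]
  have hB : tot (K (u * u * u)) =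
      tot (K u) + tot (K u) + tot (K u) - tot (m * act u m') + tot (m * m') := by
    have h : K (u * u * u) = K u + act u (K u) + act (u * u) (K u) - m * act u m' + m * m'
        + m * act u m' - act u (m * act u m') := by
      rw [hK (u * u) u, hKuu, hzuu, hz'u, act_mulf u m (act u m'), ← act_mul u u m', huum']
      ring
    rw [h, tot_sub, tot_add, tot_add, tot_sub, tot_add, tot_add, tot_act, tot_act, tot_act]
    ring
  -- (C) `ε(K (s u)) = ε(K s) + ε(K u) + ε(m m')`
  have hC : tot (K (s * u)) = tot (K s) + tot (K u) + tot (m * m') := by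
    have h : K (s * u) = K s + act s (K u) + m * m' := by
      rw [hK s u, hzs, hz'u, hsm']
      ring
    rw [h, tot_add, tot_add, tot_act]
  rw [hKss] at hA
  rw [hKuuu] at hB
  rw [hC]
  linear_combination (-3 : R) * hA - (2 : R) * hB

/-- a crossed hom vanishes on an involution acting trivially (2-torsion-free coefficients) -/
theorem coc_central_eq_zero {z : G → Ω → R} (hz : IsCoc z) {c : G} (hcc : c * c = 1)
    (hc : ∀ ω : Ω, c • ω = ω) (h2 : ∀ r : R, r + r = 0 → r = 0) : z c = 0 := by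
  have hact : ∀ f : Ω → R, act c f = f := by
    intro f
    funext ω
    rw [act_apply]
    congr 1
    rw [inv_smul_eq_iff, hc]
  have h := hz c c
  rw [hcc, hz.map_one, hact] at h
  funext ω
  exact h2 _ (congrFun h ω).symm

/-- a primitive vanishes on an involution acting trivially (2-torsion-free coefficients) -/
theorem prim_central_eq_zero {z z' K : G → Ω → R} (hK : IsPrim z z' K) (hz : IsCoc z)
    {c : G} (hcc : c * c = 1)
    (hc : ∀ ω : Ω, c • ω = ω) (h2 : ∀ r : R, r + r = 0 → r = 0) : K c = 0 := by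
  have hact : ∀ f : Ω → R, act c f = f := by
    intro f
    funext ω
    rw [act_apply]
    congr 1
    rw [inv_smul_eq_iff, hc]
  have hzc : z c = 0 := coc_central_eq_zero hz hcc hc h2
  have h := hK c c
  rw [hcc, hK.map_one hz, hact, hzc, zero_mul, sub_zero] at h
  funext ω
  exact h2 _ (congrFun h ω).symm

/-- **(G1) + (G2)**: the generator formula when `s² = u³ = c` is an involution acting trivially. -/
theorem six_mul_tot_K_of_central {s u c : G} {z z' K : G → Ω → R} {m m' : Ω → R}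
    (hK : IsPrim z z' K) (hz : IsCoc z) (hz' : IsCoc z')
    (hzs : z s = m) (hzu : z u = m) (hz's : z' s = m') (hz'u : z' u = m')
    (hcc : c * c = 1) (hc : ∀ ω : Ω, c • ω = ω) (hsc : s * s = c) (huc : u * u * u = c)
    (h2 : ∀ r : R, r + r = 0 → r = 0) :
    6 * tot (K (s * u)) = tot (m * m') + 2 * tot (m * act u m') := by
  have hz'c : z' c = 0 := coc_central_eq_zero hz' hcc hc h2
  have hKc : K c = 0 := prim_central_eq_zero hK hz hcc hc h2
  refine six_mul_tot_K hK hz hz' hzs hzu hz's hz'u ?_ ?_ ?_ ?_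
  · rw [hsc, hz'c]
  · rw [huc, hz'c]
  · rw [hsc, hKc]
    simp [tot]
  · rw [huc, hKc]
    simp [tot]

end Gen

section Model

variable {G : Type*} [Group G] {Ω : Type} [MulAction G Ω] [Fintype Ω] [DecidableEq Ω]

/-- **(G3)** the `(P, s, t)`-datum of a finite `G`-set and two elements `s`, `u` whose square / cube
act trivially: `D.S = act s`, `D.T = act u`, `D.U = act (s * u)`. -/
def datumOf (s u : G) (hss : ∀ ω : Ω, (s * s) • ω = ω) (huuu : ∀ ω : Ω, (u * u * u) • ω = ω) :
    Datum Ω where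
  s := MulAction.toPerm s⁻¹
  t := MulAction.toPerm u⁻¹
  hs x := by
    show s⁻¹ • s⁻¹ • x = x
    rw [← mul_smul, ← mul_inv_rev, inv_smul_eq_iff, hss]
  ht x := by
    show u⁻¹ • u⁻¹ • u⁻¹ • x = x
    rw [← mul_smul, ← mul_smul, ← mul_inv_rev, ← mul_inv_rev, inv_smul_eq_iff, ← mul_assoc, huuu]

variable (s u : G) (hss : ∀ ω : Ω, (s * s) • ω = ω) (huuu : ∀ ω : Ω, (u * u * u) • ω = ω)

theorem datumOf_S (f : Ω → ℤ) : (datumOf s u hss huuu).S f = act s f := rfl

theorem datumOf_T (f : Ω → ℤ) : (datumOf s u hss huuu).T f = act u f := rfl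

theorem datumOf_U (f : Ω → ℤ) : (datumOf s u hss huuu).U f = act (s * u) f := by
  rw [Datum.U_apply, datumOf_S, datumOf_T, act_mul]

/-- the rational-valued function of an integer-valued one -/
def castQ (f : Ω → ℤ) : Ω → ℚ := fun ω => (f ω : ℚ)

theorem castQ_act (g : G) (f : Ω → ℤ) : castQ (act g f) = act g (castQ f) := rfl

theorem castQ_neg (f : Ω → ℤ) : castQ (-f) = - castQ f := by
  funext ω
  simp [castQ]

theorem tot_castQ_mul (f g : Ω → ℤ) : tot (castQ f * castQ g) = ((dot f g : ℤ) : ℚ) := by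
  unfold tot dot castQ
  push_cast
  rfl

/-- **(G4) cusp sum = - ω**, for any datum `D` on `Ω` with `D.S = act s`, `D.T = act u`.
For cycles `a a' ∈ D.A`, rational crossed homs `z z'` with `z s = z u = a`, `z' s = z' u = a'`, a
primitive `K` of their cup product, and EVERY `κ : Γ → ℚ` with
`κ (γ δ) = κ γ + κ δ - φ γ * ψ δ` (`φ = ev z`, `ψ = ev z'`):
the sum of `κ` over the cusp generators is `- ω (J a, J a')`. -/
theorem cuspSum_eq_neg_omega_of_datum [MulAction.IsPretransitive G Ω] (D : Datum Ω)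
    (hS : ∀ f : Ω → ℤ, D.S f = act s f) (hT : ∀ f : Ω → ℤ, D.T f = act u f)
    (a a' : D.A) {z z' K : G → Ω → ℚ}
    (hK : IsPrim z z' K) (hz : IsCoc z) (hz' : IsCoc z')
    (hzs : z s = castQ (a : Ω → ℤ)) (hzu : z u = castQ (a : Ω → ℤ))
    (hz's : z' s = castQ (a' : Ω → ℤ)) (hz'u : z' u = castQ (a' : Ω → ℤ))
    {c : G} (hcc : c * c = 1) (hc : ∀ ω : Ω, c • ω = ω) (hsc : s * s = c) (huc : u * u * u = c)
    {ω₀ : Ω} (C : CuspSys (s * u) ω₀)
    (hgen : Subgroup.closure {g : G | IsOfFinOrder g} = ⊤)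
    {κ : MulAction.stabilizer G ω₀ → ℚ} (hκ : IsKappa (ev ω₀ z) (ev ω₀ z') κ) :
    ∑ i, κ (C.γ i) =
      -((D.omega ⟨D.J a, D.J_mem_L a⟩ ⟨D.J a', D.J_mem_L a'⟩ : ℤ) : ℚ) := by
  -- `z (s u) = 0`, `z' (s u) = 0`
  have hSa : ∀ b : D.A, act s (castQ (b : Ω → ℤ)) = - castQ (b : Ω → ℤ) := by
    intro b
    rw [← castQ_act, ← castQ_neg, ← hS]
    congr 1
    exact D.S_mem_A b.2
  have hτ : z (s * u) = 0 := by
    rw [hz s u, hzs, hzu, hSa a]
    abel
  have hτ' : z' (s * u) = 0 := by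
    rw [hz' s u, hz's, hz'u, hSa a']
    abel
  have h1 := cuspSum_eq C hK hz hz' hτ hτ' hgen hκ
  have h2 := six_mul_tot_K_of_central hK hz hz' hzs hzu hz's hz'u hcc hc hsc huc
    (fun r hr => by linarith)
  have h3 := D.six_mul_omega_J_J a a'
  rw [← castQ_act, ← hT, tot_castQ_mul, tot_castQ_mul] at h2
  have h5 : (6 : ℚ) * ((D.omega ⟨D.J a, D.J_mem_L a⟩ ⟨D.J a', D.J_mem_L a'⟩ : ℤ) : ℚ) =
      -(((dot (a : Ω → ℤ) (a' : Ω → ℤ) : ℤ) : ℚ) +
        2 * ((dot (a : Ω → ℤ) (D.T (a' : Ω → ℤ)) : ℤ) : ℚ)) := by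
    have := congrArg (fun n : ℤ => (n : ℚ)) h3
    simpa using this
  rw [h1]
  unfold tot at h2
  linarith

/-- the same with the opposite normalisation `z s = z u = -a`, `z' s = z' u = -a'` (this is the
normalised crossed hom `c_k - c_n + d n` whose evaluation is the class `J a`). -/
theorem cuspSum_eq_neg_omega_of_datum_neg [MulAction.IsPretransitive G Ω] (D : Datum Ω)
    (hS : ∀ f : Ω → ℤ, D.S f = act s f) (hT : ∀ f : Ω → ℤ, D.T f = act u f)
    (a a' : D.A) {z z' K : G → Ω → ℚ}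
    (hK : IsPrim z z' K) (hz : IsCoc z) (hz' : IsCoc z')
    (hzs : z s = - castQ (a : Ω → ℤ)) (hzu : z u = - castQ (a : Ω → ℤ))
    (hz's : z' s = - castQ (a' : Ω → ℤ)) (hz'u : z' u = - castQ (a' : Ω → ℤ))
    {c : G} (hcc : c * c = 1) (hc : ∀ ω : Ω, c • ω = ω) (hsc : s * s = c) (huc : u * u * u = c)
    {ω₀ : Ω} (C : CuspSys (s * u) ω₀)
    (hgen : Subgroup.closure {g : G | IsOfFinOrder g} = ⊤)
    {κ : MulAction.stabilizer G ω₀ → ℚ} (hκ : IsKappa (ev ω₀ z) (ev ω₀ z') κ) :
    ∑ i, κ (C.γ i) =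
      -((D.omega ⟨D.J a, D.J_mem_L a⟩ ⟨D.J a', D.J_mem_L a'⟩ : ℤ) : ℚ) := by
  have e : ∀ b : D.A, castQ (((-b : D.A) : Ω → ℤ)) = - castQ (b : Ω → ℤ) := fun b => by
    rw [AddSubgroup.coe_neg, castQ_neg]
  have h := cuspSum_eq_neg_omega_of_datum s u D hS hT (-a) (-a') hK hz hz'
    (by rw [e]; exact hzs) (by rw [e]; exact hzu) (by rw [e]; exact hz's) (by rw [e]; exact hz'u)
    hcc hc hsc huc C hgen hκ
  rw [h, D.omega_J_J, D.omega_J_J, map_neg, map_neg, map_neg, AddMonoidHom.neg_apply, neg_neg]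

/-- **(G4) for `datumOf s u`.** -/
theorem cuspSum_eq_neg_omega [MulAction.IsPretransitive G Ω]
    (a a' : (datumOf s u hss huuu).A) {z z' K : G → Ω → ℚ}
    (hK : IsPrim z z' K) (hz : IsCoc z) (hz' : IsCoc z')
    (hzs : z s = castQ (a : Ω → ℤ)) (hzu : z u = castQ (a : Ω → ℤ))
    (hz's : z' s = castQ (a' : Ω → ℤ)) (hz'u : z' u = castQ (a' : Ω → ℤ))
    {c : G} (hcc : c * c = 1) (hc : ∀ ω : Ω, c • ω = ω) (hsc : s * s = c) (huc : u * u * u = c)
    {ω₀ : Ω} (C : CuspSys (s * u) ω₀)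
    (hgen : Subgroup.closure {g : G | IsOfFinOrder g} = ⊤)
    {κ : MulAction.stabilizer G ω₀ → ℚ} (hκ : IsKappa (ev ω₀ z) (ev ω₀ z') κ) :
    ∑ i, κ (C.γ i) =
      -(((datumOf s u hss huuu).omega ⟨(datumOf s u hss huuu).J a, Datum.J_mem_L _ a⟩
          ⟨(datumOf s u hss huuu).J a', Datum.J_mem_L _ a'⟩ : ℤ) : ℚ) :=
  cuspSum_eq_neg_omega_of_datum s u (datumOf s u hss huuu) (fun _ => rfl) (fun _ => rfl) a a'
    hK hz hz' hzs hzu hz's hz'u hcc hc hsc huc C hgen hκ

end Model

end Fermat.Agent.S41.PDModel3
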