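/-
S41 / [PD-UNIMOD] (helper3), part 5: functoriality of the model in `P` — the adjunction
`ω''(res x, z) = ω'(x, cores z)`.

A morphism `π : P₂ → P₁` of `(s, t)`-sets (think `Γ'' \ G → Γ' \ G` for `Γ'' ≤ Γ'`) induces
`pull f = f ∘ π` (restriction) and `push g y = ∑_{π x = y} g x` (corestriction / transfer).
They are adjoint for `dot`, commute with `S`, `T`, hence with the splice map `J`, and therefore
`D₂.omega (pullL x) z = D₁.omega x (pushL z)`.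
-/
import Mathlib
import Fermat.Agent.S41.PDModel3.Omega

set_option autoImplicit false
set_option linter.unusedSectionVars false

namespace Fermat.Agent.S41.PDModel3

variable {P : Type} [Fintype P] [DecidableEq P]

theorem dot_single_left (g : P → ℤ) (y : P) : dot (Pi.single y 1) g = g y := by
  rw [dot_comm, dot_single_right]

/-- `dot` is non-degenerate -/
theorem eq_of_forall_dot_eq {g g' : P → ℤ} (h : ∀ f, dot f g = dot f g') : g = g' := by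
  funext y
  have := h (Pi.single y 1)
  rwa [dot_single_left, dot_single_left] at this

variable {P₁ P₂ : Type} [Fintype P₁] [DecidableEq P₁] [Fintype P₂] [DecidableEq P₂]

/-- a morphism of `(s, t)`-sets -/
structure Mor (D₂ : Datum P₂) (D₁ : Datum P₁) where
  π : P₂ → P₁
  hs : ∀ x, π (D₂.s x) = D₁.s (π x)
  ht : ∀ x, π (D₂.t x) = D₁.t (π x)

namespace Mor

variable {D₂ : Datum P₂} {D₁ : Datum P₁} (φ : Mor D₂ D₁)

/-- restriction `f ↦ f ∘ π` -/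
def pull : (P₁ → ℤ) →+ (P₂ → ℤ) where
  toFun f := fun x => f (φ.π x)
  map_zero' := rfl
  map_add' _ _ := rfl

/-- corestriction `g ↦ (y ↦ ∑_{π x = y} g x)` -/
def push : (P₂ → ℤ) →+ (P₁ → ℤ) where
  toFun g := fun y => ∑ x, if φ.π x = y then g x else 0
  map_zero' := by
    funext y
    simp
  map_add' g g' := by
    funext y
    simp only [Pi.add_apply]
    rw [← Finset.sum_add_distrib]
    exact Finset.sum_congr rfl fun x _ => by split_ifs <;> simp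

@[simp] theorem pull_apply (f : P₁ → ℤ) (x : P₂) : φ.pull f x = f (φ.π x) := rfl

theorem push_apply (g : P₂ → ℤ) (y : P₁) :
    φ.push g y = ∑ x, if φ.π x = y then g x else 0 := rfl

/-- **adjunction** `⟨pull f, g⟩ = ⟨f, push g⟩` -/
theorem dot_pull_left (f : P₁ → ℤ) (g : P₂ → ℤ) : dot (φ.pull f) g = dot f (φ.push g) := by
  unfold dot
  simp only [pull_apply, push_apply, Finset.mul_sum]
  rw [Finset.sum_comm]
  refine Finset.sum_congr rfl fun x _ => ?_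
  simp only [mul_ite, mul_zero]
  rw [Finset.sum_ite_eq]
  simp

theorem dot_push_left (g : P₂ → ℤ) (f : P₁ → ℤ) : dot (φ.push g) f = dot g (φ.pull f) := by
  rw [dot_comm, ← φ.dot_pull_left, dot_comm]

theorem pull_S (f : P₁ → ℤ) : φ.pull (D₁.S f) = D₂.S (φ.pull f) := by
  funext x
  show f (D₁.s (φ.π x)) = f (φ.π (D₂.s x))
  rw [φ.hs]

theorem pull_T (f : P₁ → ℤ) : φ.pull (D₁.T f) = D₂.T (φ.pull f) := by
  funext x
  show f (D₁.t (φ.π x)) = f (φ.π (D₂.t x))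
  rw [φ.ht]

theorem dot_T_right (D : Datum P) (f g : P → ℤ) : dot f (D.T g) = dot (D.T (D.T f)) g := by
  rw [← D.dot_T (D.T (D.T f)) g, D.T_T_T]

theorem push_S (g : P₂ → ℤ) : φ.push (D₂.S g) = D₁.S (φ.push g) := by
  apply eq_of_forall_dot_eq
  intro f
  rw [← φ.dot_pull_left, ← D₂.dot_S_left, ← φ.pull_S, φ.dot_pull_left, D₁.dot_S_left]

theorem push_T (g : P₂ → ℤ) : φ.push (D₂.T g) = D₁.T (φ.push g) := by
  apply eq_of_forall_dot_eq
  intro f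
  rw [← φ.dot_pull_left, dot_T_right, ← φ.pull_T, ← φ.pull_T, φ.dot_pull_left, ← dot_T_right]

theorem pull_U (f : P₁ → ℤ) : φ.pull (D₁.U f) = D₂.U (φ.pull f) := by
  rw [Datum.U_apply, Datum.U_apply, φ.pull_S, φ.pull_T]

theorem push_U (g : P₂ → ℤ) : φ.push (D₂.U g) = D₁.U (φ.push g) := by
  rw [Datum.U_apply, Datum.U_apply, φ.push_S, φ.push_T]

theorem pull_mem_A {a : P₁ → ℤ} (ha : a ∈ D₁.A) : φ.pull a ∈ D₂.A := by
  obtain ⟨⟨k, hk⟩, ⟨n, hn⟩⟩ := ha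
  exact ⟨⟨φ.pull k, by rw [hk, map_sub, φ.pull_S]⟩, ⟨φ.pull n, by rw [hn, map_sub, φ.pull_T]⟩⟩

theorem push_mem_A {a : P₂ → ℤ} (ha : a ∈ D₂.A) : φ.push a ∈ D₁.A := by
  obtain ⟨⟨k, hk⟩, ⟨n, hn⟩⟩ := ha
  exact ⟨⟨φ.push k, by rw [hk, map_sub, φ.push_S]⟩, ⟨φ.push n, by rw [hn, map_sub, φ.push_T]⟩⟩

theorem pull_mem_I {m : P₁ → ℤ} (hm : m ∈ D₁.I) : φ.pull m ∈ D₂.I := by
  obtain ⟨y, z, hy, hz, rfl⟩ := hm
  exact ⟨φ.pull y, φ.pull z, by rw [← φ.pull_S, hy], by rw [← φ.pull_T, hz], map_add _ _ _⟩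

theorem push_mem_I {m : P₂ → ℤ} (hm : m ∈ D₂.I) : φ.push m ∈ D₁.I := by
  obtain ⟨y, z, hy, hz, rfl⟩ := hm
  exact ⟨φ.push y, φ.push z, by rw [← φ.push_S, hy], by rw [← φ.push_T, hz], map_add _ _ _⟩

/-- transfer on cycles -/
def pullA : D₁.A →+ D₂.A :=
  (φ.pull.comp D₁.A.subtype).codRestrict D₂.A fun a => φ.pull_mem_A a.2

/-- the natural map on cycles -/
def pushA : D₂.A →+ D₁.A :=
  (φ.push.comp D₂.A.subtype).codRestrict D₁.A fun a => φ.push_mem_A a.2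

@[simp] theorem coe_pullA (a : D₁.A) : ((φ.pullA a : D₂.A) : P₂ → ℤ) = φ.pull a := rfl
@[simp] theorem coe_pushA (a : D₂.A) : ((φ.pushA a : D₁.A) : P₁ → ℤ) = φ.push a := rfl

/-- restriction on `B = Hom(Γ, ℤ)` -/
def pullB : D₁.B →+ D₂.B :=
  QuotientAddGroup.map D₁.I D₂.I φ.pull fun _ hm => φ.pull_mem_I hm

/-- corestriction on `B = Hom(Γ, ℤ)` -/
def pushB : D₂.B →+ D₁.B :=
  QuotientAddGroup.map D₂.I D₁.I φ.push fun _ hm => φ.push_mem_I hm

@[simp] theorem pullB_mk (m : P₁ → ℤ) :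
    φ.pullB (QuotientAddGroup.mk m : D₁.B) = QuotientAddGroup.mk (φ.pull m) := rfl

@[simp] theorem pushB_mk (m : P₂ → ℤ) :
    φ.pushB (QuotientAddGroup.mk m : D₂.B) = QuotientAddGroup.mk (φ.push m) := rfl

/-- **the splice map commutes with restriction** -/
theorem J_pull (a : D₁.A) : D₂.J (φ.pullA a) = φ.pullB (D₁.J a) := by
  obtain ⟨⟨k, hk⟩, ⟨n, hn⟩⟩ := a.2
  rw [D₁.J_apply a hk hn, pullB_mk,
    D₂.J_apply (φ.pullA a) (k := φ.pull k) (n := φ.pull n)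
      (by rw [coe_pullA, hk, map_sub, φ.pull_S]) (by rw [coe_pullA, hn, map_sub, φ.pull_T]),
    map_sub]

/-- **the splice map commutes with corestriction** -/
theorem J_push (a : D₂.A) : D₁.J (φ.pushA a) = φ.pushB (D₂.J a) := by
  obtain ⟨⟨k, hk⟩, ⟨n, hn⟩⟩ := a.2
  rw [D₂.J_apply a hk hn, pushB_mk,
    D₁.J_apply (φ.pushA a) (k := φ.push k) (n := φ.push n)
      (by rw [coe_pushA, hk, map_sub, φ.push_S]) (by rw [coe_pushA, hn, map_sub, φ.push_T]),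
    map_sub]

theorem pullB_mem_L {b : D₁.B} (hb : b ∈ D₁.L) : φ.pullB b ∈ D₂.L := by
  obtain ⟨a, rfl⟩ := hb
  exact ⟨φ.pullA a, φ.J_pull a⟩

theorem pushB_mem_L {b : D₂.B} (hb : b ∈ D₂.L) : φ.pushB b ∈ D₁.L := by
  obtain ⟨a, rfl⟩ := hb
  exact ⟨φ.pushA a, φ.J_push a⟩

/-- restriction on `L = Hom_par(Γ, ℤ)` -/
noncomputable def pullL : D₁.L →+ D₂.L :=
  (φ.pullB.comp D₁.L.subtype).codRestrict D₂.L fun b => φ.pullB_mem_L b.2

/-- corestriction on `L = Hom_par(Γ, ℤ)` -/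
noncomputable def pushL : D₂.L →+ D₁.L :=
  (φ.pushB.comp D₂.L.subtype).codRestrict D₁.L fun b => φ.pushB_mem_L b.2

@[simp] theorem coe_pullL (b : D₁.L) : ((φ.pullL b : D₂.L) : D₂.B) = φ.pullB b := rfl
@[simp] theorem coe_pushL (b : D₂.L) : ((φ.pushL b : D₁.L) : D₁.B) = φ.pushB b := rfl

theorem pair_pull_left (a : D₁.A) (b : D₂.B) :
    D₂.pair (φ.pullA a) b = D₁.pair a (φ.pushB b) := by
  obtain ⟨m, rfl⟩ := QuotientAddGroup.mk_surjective b
  rw [pushB_mk, Datum.pair_mk, Datum.pair_mk, coe_pullA, φ.dot_pull_left]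

theorem pair_push_left (a : D₂.A) (b : D₁.B) :
    D₁.pair (φ.pushA a) b = D₂.pair a (φ.pullB b) := by
  obtain ⟨m, rfl⟩ := QuotientAddGroup.mk_surjective b
  rw [pullB_mk, Datum.pair_mk, Datum.pair_mk, coe_pushA, φ.dot_push_left]

theorem pullL_J (a : D₁.A) :
    φ.pullL ⟨D₁.J a, D₁.J_mem_L a⟩ = ⟨D₂.J (φ.pullA a), D₂.J_mem_L _⟩ :=
  Subtype.ext (φ.J_pull a).symm

theorem pushL_J (a : D₂.A) :
    φ.pushL ⟨D₂.J a, D₂.J_mem_L a⟩ = ⟨D₁.J (φ.pushA a), D₁.J_mem_L _⟩ :=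
  Subtype.ext (φ.J_push a).symm

/-- **(ADJ) `ω₂(res x, z) = ω₁(x, cores z)`.** -/
theorem omega_pull_left (x : D₁.L) (z : D₂.L) :
    D₂.omega (φ.pullL x) z = D₁.omega x (φ.pushL z) := by
  obtain ⟨a, rfl⟩ := D₁.exists_J_eq x
  rw [φ.pullL_J, D₂.omega_J, D₁.omega_J, coe_pushL, φ.pair_pull_left]

/-- **(ADJ') `ω₁(cores z, x) = ω₂(z, res x)`.** -/
theorem omega_push_left (z : D₂.L) (x : D₁.L) :
    D₁.omega (φ.pushL z) x = D₂.omega z (φ.pullL x) := by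
  rw [D₁.omega_antisymm, ← φ.omega_pull_left, ← D₂.omega_antisymm]

end Mor

end Fermat.Agent.S41.PDModel3
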