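/-
S41 / [PD-UNIMOD] (helper3), part 4: UNCONDITIONAL non-degeneracy / perfectness of the
intersection form `ω` on `L`, in the `(P, s, t)` model, over `ℤ`.

Inputs: `PDModel3/Omega.lean` (the form, `I_saturated`, `omega_nondeg_mod` with the lattice facts
as hypotheses) and helper10's generic lattice lemmas `PDAlg10/Lattice.lean`
(`mem_of_forall_dot_eq_zero`, `exists_dot_eq`).

* `omega_nondeg_mod'` : `(∀ y, p ∣ ω x y) → ∃ w, x = p • w`   (every `p ≠ 0`);
* `omega_perfect`     : every functional on `L` is `ω(·, y)` for a unique `y ∈ L`;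
* `omega_left_injective`.
-/
import Mathlib
import Fermat.Agent.S41.PDModel3.Omega
import Fermat.Agent.S41.PDAlg10.Lattice

set_option autoImplicit false
set_option linter.unusedSectionVars false

namespace Fermat.Agent.S41.PDModel3

variable {P : Type} [Fintype P] [DecidableEq P]

namespace Datum

variable (D : Datum P)

/-- `A = I^⊥` in the unbundled form used by `PDAlg10` -/
theorem mem_A_iff_forall_I (a : P → ℤ) :
    a ∈ D.A ↔ ∀ i ∈ D.I, ∑ x, i x * a x = 0 := by
  constructor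
  · intro ha i hi
    have := D.dot_A_I ha hi
    rw [dot_comm] at this
    exact this
  · intro h
    rw [D.mem_A_iff_perp]
    refine ⟨fun y hy => ?_, fun z hz => ?_⟩
    · rw [dot_comm]
      exact h y ⟨y, 0, hy, by simp, by simp⟩
    · rw [dot_comm]
      exact h z ⟨0, z, by simp, hz, by simp⟩

/-- **(L1) for the model**: `A^⊥ ⊆ I`. -/
theorem mem_I_of_perp_A (m : P → ℤ) (h : ∀ a ∈ D.A, dot a m = 0) : m ∈ D.I :=
  PDAlg10.mem_of_forall_dot_eq_zero D.I D.A D.mem_A_iff_forall_I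
    (fun n m hn hm => D.I_saturated n hn m hm) m h

/-- **(L2) for the model**: every functional on `A` is `⟨·, m⟩`. -/
theorem exists_dot_eq_of_hom (lam : D.A →+ ℤ) :
    ∃ m : P → ℤ, ∀ a : D.A, lam a = dot (a : P → ℤ) m :=
  PDAlg10.exists_dot_eq D.I D.A D.mem_A_iff_forall_I lam

/-- the pairing `A × B → ℤ` is non-degenerate on the right -/
theorem eq_zero_of_pair_eq_zero (b : D.B) (h : ∀ a : D.A, D.pair a b = 0) : b = 0 := by
  obtain ⟨m, rfl⟩ := QuotientAddGroup.mk_surjective b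
  rw [QuotientAddGroup.eq_zero_iff]
  exact D.mem_I_of_perp_A m fun a ha => h ⟨a, ha⟩

/-- **NON-DEGENERACY OF `ω` MODULO `p`, unconditional.**  If `p ∣ ω(x, y)` for every `y ∈ L`, then
`x ∈ p L`. -/
theorem omega_nondeg_mod' (p : ℤ) (hp : p ≠ 0) (x : D.L) (h : ∀ y : D.L, p ∣ D.omega x y) :
    ∃ w : D.L, x = p • w :=
  D.omega_nondeg_mod D.mem_I_of_perp_A D.exists_dot_eq_of_hom p hp x h

/-- the same on the right -/
theorem omega_nondeg_mod_right (p : ℤ) (hp : p ≠ 0) (y : D.L) (h : ∀ x : D.L, p ∣ D.omega x y) :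
    ∃ w : D.L, y = p • w :=
  D.omega_nondeg_mod' p hp y fun x => by
    rw [D.omega_antisymm]
    exact (dvd_neg.2 (h x))

/-- `ω` is non-degenerate over `ℤ` -/
theorem omega_left_injective (x : D.L) (h : ∀ y : D.L, D.omega x y = 0) : x = 0 := by
  obtain ⟨a, rfl⟩ := D.exists_J_eq x
  -- `ω(J a, y) = -ω(y, J a) = -⟨a', J a⟩`, so `J a ⊥ A`
  have : D.J a = 0 := by
    apply D.eq_zero_of_pair_eq_zero
    intro a'
    have h1 := h ⟨D.J a', D.J_mem_L a'⟩
    rw [D.omega_antisymm, D.omega_J] at h1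
    exact neg_eq_zero.1 h1
  exact Subtype.ext this

/-- **PERFECTNESS of `ω` over `ℤ`**: every additive functional on `L` is `ω(·, y)` for a unique
`y ∈ L`. -/
theorem omega_perfect (lam : D.L →+ ℤ) : ∃! y : D.L, ∀ x : D.L, D.omega x y = lam x := by
  obtain ⟨m, hm⟩ := D.exists_dot_eq_of_hom (lam.comp D.JL)
  have hmL : (QuotientAddGroup.mk m : D.B) ∈ D.L := by
    rw [D.mk_mem_L_iff]
    intro w hw
    have hA := D.parabolic_mem_A hw
    have h0 : D.J ⟨w - D.S w, hA⟩ = 0 := (D.J_eq_zero_iff _).2 ⟨w, hw, rfl⟩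
    have h1 := hm ⟨w - D.S w, hA⟩
    have h2 : D.JL ⟨w - D.S w, hA⟩ = 0 := (D.JL_eq_zero_iff _).2 h0
    rw [AddMonoidHom.comp_apply, h2, map_zero] at h1
    exact h1.symm
  refine ⟨⟨QuotientAddGroup.mk m, hmL⟩, ?_, ?_⟩
  · intro x
    obtain ⟨a, rfl⟩ := D.exists_J_eq x
    rw [D.omega_J, pair_mk, ← hm a]
    rfl
  · intro y hy
    have hsub : y - ⟨QuotientAddGroup.mk m, hmL⟩ = 0 := by
      have key : ∀ x : D.L, D.omega x (y - ⟨QuotientAddGroup.mk m, hmL⟩) = 0 := by
        intro x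
        obtain ⟨a, rfl⟩ := D.exists_J_eq x
        rw [map_sub, hy, D.omega_J, pair_mk, ← hm a]
        exact sub_self _
      have key' : ∀ x : D.L, D.omega (y - ⟨QuotientAddGroup.mk m, hmL⟩) x = 0 := by
        intro x
        rw [D.omega_antisymm, key x, neg_zero]
      exact D.omega_left_injective _ key'
    exact sub_eq_zero.1 hsub

end Datum

end Fermat.Agent.S41.PDModel3
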